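/-
Row 37 (S43), block GLUE, LAYER 3, group C4 (helper102).  THE FIELDS `γ`, `γ'` OF `Glue.Raw` ON THE CONCRETE OBJECTS.

`F1 = F1Q q M`, `F0 = modularFunctionFieldFull (q * M)`, `V = W1 F1 n`, `V₀ = W1 F0 n`, `up = Ops.Pi.up q M n`,
`K = Triv.Ki q M A n`, `K' = Triv.Kz Wd A n`, `Y₀ = Triv.Ki0 q M A n`, `Triv.Kz0 W0d A n` (`Triv/Contract.lean`).

* `TW_sub_mem_Ki0` : `π^* x ∈ K  → (T_l - l - 1) x ∈ K_∞^0`     (ANY `n ≠ 0`, any `l ∤ q M`, any `T_l` with trivial diamond);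
* `TW_sub_mem_Kz0` : `π^* x ∈ K' → (T_l - l - 1) x ∈ K_0^0`;
* `gamma`, `gamma'_Kz0`, `gamma'` : the fields, for ANY family `t₀` on `V₀` having an index `i₀` with
  `t₀ i₀ y = T_l y - a • y`, `a - l - 1` prime to `p`, `n = p ^ (e + 1)`.
  (`gamma'` takes the E0 output `K_0^0 = K_∞^0` on `loc t₀` as a hypothesis.)
* `…_w0` : the same for the concrete `Ops.wDat hq hc`, `Ops.w0Dat hq hc` (no hypothesis on `w` left).
-/
import Fermat.Agent.S43.C4.Direct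
import Fermat.Agent.S43.C4.Main
import Fermat.Agent.S43.C4.Raw
import Fermat.Agent.S43.Triv.Contract
import Fermat.Agent.S43.Ops.Pi.Inst
import Fermat.Agent.S43.Ops.New.W0
import Fermat.Agent.S43.Ops.W.Inst

set_option autoImplicit false

noncomputable section

namespace Fermat.Agent.S43.Glue.Inst

open ModularCurve AlgebraicCurve Fermat.Agent.S24 Fermat.Agent.S24.B Fermat.Agent.S48.BB
  Fermat.Agent.S48.BB.M Fermat.Agent.S48.BB.E Fermat.Agent.S48.BB.T Fermat.Agent.S43.Ops.Pi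
  Fermat.Agent.S43.Triv Fermat.Agent.S43.LocZ
open Fermat.Agent.GAL.E (GQ)

variable {q M : ℕ} [NeZero q] [NeZero M] {A : ValuationSubring Kbar} {n : ℕ}

theorem not_dvd_card_units (hq : q.Prime) : ¬ q ∣ Fintype.card (ZMod q)ˣ := by
  have : Fact q.Prime := ⟨hq⟩
  rw [ZMod.card_units]
  intro h
  have h1 := Nat.le_of_dvd (by have := hq.two_le; omega) h
  have := hq.two_le
  omega

section Gen

variable {l : ℕ} [NeZero l] (hq : q.Prime) (hA : A.LiesOverPrime q) (hl : l.Prime)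
  (hlN : ¬ l ∣ q * M) (T₀ : HeckeOp1 (modularFunctionFieldFull (q * M)) l) (hT₀ : T₀.D = 1)

include hq hA hl hlN hT₀

/-- **C4 at `∞`**: `π^* x ∈ K_∞ → (T_l - l - 1) x ∈ K_∞^0`. -/
theorem TW_sub_mem_Ki0 [NeZero n] (x : W1 (modularFunctionFieldFull (q * M)) n)
    (hx : up q M n x ∈ Ki q M A n) : T₀.TW n x - (l + 1) • x ∈ Ki0 q M A n :=
  C4.Direct.isKinf_TW_sub (pairD q M) (diaD q M) T₀ (Ops.heckeOpT q M hl hlN) (unitL hl hlN)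
    (intGen0 q M) (intGen1 q M) hq hA (not_dvd_card_units hq) dia_fix
    (fun y hy => Ops.exists_alphaB_eq_of_dia y hy) (fun u => by rw [hT₀]; rfl)
    (fun y => by rw [heckeOpT_D_eq_dia hl hlN]) (fun d y => (T_dia hl hlN d y).symm) x hx

/-- **C4 at `0`**: `π^* x ∈ K_0 → (T_l - l - 1) x ∈ K_0^0`. -/
theorem TW_sub_mem_Kz0 [NeZero n] {Wd : WDat q M} (W0d : W0Dat Wd)
    (hwT : ∀ y : W1 (modularFunctionFieldFull (q * M)) n,
      autW W0d.w0 n (T₀.TW n y) = T₀.TW n (autW W0d.w0 n y))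
    (x : W1 (modularFunctionFieldFull (q * M)) n)
    (hx : up q M n x ∈ Kz Wd A n) : T₀.TW n x - (l + 1) • x ∈ Kz0 W0d A n :=
  C4.Direct.isK0_TW_sub (pairD q M) W0d.toWTw Wd.toWTw T₀ (Ops.heckeOpT q M hl hlN) (unitL hl hlN)
    (intGen0 q M) (intGen1 q M) hq hA (not_dvd_card_units hq) dia_fix
    (fun y hy => Ops.exists_alphaB_eq_of_dia y hy) (fun u => by rw [hT₀]; rfl)
    (fun y => by rw [heckeOpT_D_eq_dia hl hlN]; rfl) (fun d y => (T_dia hl hlN d y).symm)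
    W0d.compat hwT x hx

omit hl hlN in
/-- `K_∞^0` is stable under `T_l`. -/
theorem TW_mem_Ki0 [NeZero n] {y : W1 (modularFunctionFieldFull (q * M)) n}
    (hy : y ∈ Ki0 q M A n) : T₀.TW n y ∈ Ki0 q M A n :=
  C4.isKinf_TW (intGen0 q M) hq hA T₀ hT₀ hy

omit hl hlN in
/-- `K_0^0` is stable under `T_l`. -/
theorem TW_mem_Kz0 [NeZero n] {Wd : WDat q M} (W0d : W0Dat Wd)
    (hwT : ∀ y : W1 (modularFunctionFieldFull (q * M)) n,
      autW W0d.w0 n (T₀.TW n y) = T₀.TW n (autW W0d.w0 n y))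
    {y : W1 (modularFunctionFieldFull (q * M)) n}
    (hy : y ∈ Kz0 W0d A n) : T₀.TW n y ∈ Kz0 W0d A n := by
  show autW W0d.w0 n (T₀.TW n y) ∈ Ki0 q M A n
  rw [hwT]
  exact TW_mem_Ki0 hq hA T₀ hT₀ hy

end Gen

/-! ### The fields -/

section Fields

variable {l : ℕ} [NeZero l] {p k : ℕ} {ι : Type*}
  (hq : q.Prime) (hA : A.LiesOverPrime q) (hl : l.Prime)
  (hlN : ¬ l ∣ q * M) (T₀ : HeckeOp1 (modularFunctionFieldFull (q * M)) l) (hT₀ : T₀.D = 1)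
  (hV₀ : ∀ y : W1 (modularFunctionFieldFull (q * M)) n, p ^ k • y = 0)
  (t₀ : ι → W1 (modularFunctionFieldFull (q * M)) n →+ W1 (modularFunctionFieldFull (q * M)) n)
  (i₀ : ι) (c : ℤ) (hc : IsCoprime c (p : ℤ))
  (hη : ∀ y, t₀ i₀ y + c • y = T₀.TW n y - (l + 1) • y)

/-- the shape of `hη` from `t₀ i₀ = T_l - a`, `c = a - l - 1` -/
theorem eta_eq {V₀ : Type*} [AddCommGroup V₀] (τ T : V₀ →+ V₀) (a : ℤ) (l : ℕ)
    (h : ∀ y, τ y = T y - a • y) (y : V₀) :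
    τ y + (a - l - 1) • y = T y - (l + 1) • y := by
  rw [h, sub_smul, sub_smul, one_smul, add_smul, one_smul, natCast_zsmul]
  abel

/-- a subgroup stable under `T_l` is stable under `t₀ i₀` -/
theorem stable_of_eta {V₀ : Type*} [AddCommGroup V₀] (τ T : V₀ →+ V₀) (c : ℤ) (m : ℕ)
    (h : ∀ y, τ y + c • y = T y - m • y) (Y : AddSubgroup V₀) (hY : ∀ y ∈ Y, T y ∈ Y) :
    ∀ y ∈ Y, τ y ∈ Y := by
  intro y hy
  have e : τ y = T y - m • y - c • y := by rw [← h, add_sub_cancel_right]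
  rw [e]
  exact Y.sub_mem (Y.sub_mem (hY y hy) (Y.nsmul_mem hy m)) (Y.zsmul_mem hy c)

include hq hA hl hlN hT₀ hV₀ hc hη

/-- **Field `γ` of `Glue.Raw`.** -/
theorem gamma [NeZero n] : ∀ y ∈ loc t₀, up q M n y ∈ Ki q M A n → y ∈ Ki0 q M A n := by
  intro y hy h
  have hst : ∀ z ∈ Ki0 q M A n, t₀ i₀ z ∈ Ki0 q M A n :=
    stable_of_eta (V₀ := W1 (modularFunctionFieldFull (q * M)) n) (t₀ i₀) (T₀.TW n) c (l + 1) hη
      (Ki0 q M A n) fun z hz => TW_mem_Ki0 hq hA T₀ hT₀ hz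
  have h1 : t₀ i₀ y + c • y ∈ Ki0 q M A n := by
    rw [hη]
    exact TW_sub_mem_Ki0 hq hA hl hlN T₀ hT₀ y h
  exact C4.mem_of_add_zsmul_mem (A := W1 (modularFunctionFieldFull (q * M)) n) hV₀ hc i₀
    (Ki0 q M A n) hst hy h1

/-- **Field `γ'` of `Glue.Raw`, before E0**: the conclusion is `y ∈ K_0^0`. -/
theorem gamma'_Kz0 [NeZero n] {Wd : WDat q M} (W0d : W0Dat Wd)
    (hwT : ∀ y : W1 (modularFunctionFieldFull (q * M)) n,
      autW W0d.w0 n (T₀.TW n y) = T₀.TW n (autW W0d.w0 n y)) :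
    ∀ y ∈ loc t₀, up q M n y ∈ Kz Wd A n → y ∈ Kz0 W0d A n := by
  intro y hy h
  have hst : ∀ z ∈ Kz0 W0d A n, t₀ i₀ z ∈ Kz0 W0d A n :=
    stable_of_eta (V₀ := W1 (modularFunctionFieldFull (q * M)) n) (t₀ i₀) (T₀.TW n) c (l + 1) hη
      (Kz0 W0d A n) fun z hz => TW_mem_Kz0 hq hA T₀ hT₀ W0d hwT hz
  have h1 : t₀ i₀ y + c • y ∈ Kz0 W0d A n := by
    rw [hη]
    exact TW_sub_mem_Kz0 hq hA hl hlN T₀ hT₀ W0d hwT y h
  exact C4.mem_of_add_zsmul_mem (A := W1 (modularFunctionFieldFull (q * M)) n) hV₀ hc i₀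
    (Kz0 W0d A n) hst hy h1

/-- **Field `γ'` of `Glue.Raw`** (`hE0` = E0: `K_0^0 ≤ K_∞^0` on the `m`-part). -/
theorem gamma' [NeZero n] {Wd : WDat q M} (W0d : W0Dat Wd)
    (hwT : ∀ y : W1 (modularFunctionFieldFull (q * M)) n,
      autW W0d.w0 n (T₀.TW n y) = T₀.TW n (autW W0d.w0 n y))
    (hE0 : ∀ y ∈ loc t₀, y ∈ Kz0 W0d A n → y ∈ Ki0 q M A n) :
    ∀ y ∈ loc t₀, up q M n y ∈ Kz Wd A n → y ∈ Ki0 q M A n :=
  fun y hy h => hE0 y hy (gamma'_Kz0 hq hA hl hlN T₀ hT₀ hV₀ t₀ i₀ c hc hη W0d hwT y hy h)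

end Fields

/-! ### The concrete Atkin-Lehner data `Ops.wDat`, `Ops.w0Dat` -/

section Conc

variable {l : ℕ} [NeZero l]

/-- `w0` commutes with `T_l` on `W1 F0 n` (`Ops/New/W0.lean`), for the `w0` of `Ops.w0Dat`. -/
theorem w0Dat_TW (hq : q.Prime) (hqM : Nat.Coprime q M) (hl : l.Prime) (hlN : ¬ l ∣ q * M)
    (T₀ : HeckeOp1 (modularFunctionFieldFull (q * M)) l) (hT₀ : T₀.D = 1)
    (y : W1 (modularFunctionFieldFull (q * M)) n) :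
    autW (Ops.w0Dat hq hqM).w0 n (T₀.TW n y) = T₀.TW n (autW (Ops.w0Dat hq hqM).w0 n y) :=
  Ops.New.w0W_TW hqM hl hlN T₀ (fun u => by rw [hT₀]; rfl) n y

variable {p k : ℕ} {ι : Type*}
  (hq : q.Prime) (hqM : Nat.Coprime q M) (hA : A.LiesOverPrime q) (hl : l.Prime)
  (hlN : ¬ l ∣ q * M) (T₀ : HeckeOp1 (modularFunctionFieldFull (q * M)) l) (hT₀ : T₀.D = 1)
  (hV₀ : ∀ y : W1 (modularFunctionFieldFull (q * M)) n, p ^ k • y = 0)
  (t₀ : ι → W1 (modularFunctionFieldFull (q * M)) n →+ W1 (modularFunctionFieldFull (q * M)) n)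
  (i₀ : ι) (c : ℤ) (hc : IsCoprime c (p : ℤ))
  (hη : ∀ y, t₀ i₀ y + c • y = T₀.TW n y - (l + 1) • y)

include hA hl hlN hT₀ hV₀ hc hη

theorem gamma'_Kz0_w0 [NeZero n] :
    ∀ y ∈ loc t₀, up q M n y ∈ Kz (Ops.wDat hq hqM) A n → y ∈ Kz0 (Ops.w0Dat hq hqM) A n :=
  gamma'_Kz0 hq hA hl hlN T₀ hT₀ hV₀ t₀ i₀ c hc hη (Ops.w0Dat hq hqM)
    (w0Dat_TW hq hqM hl hlN T₀ hT₀)

theorem gamma'_w0 [NeZero n]
    (hE0 : ∀ y ∈ loc t₀, y ∈ Kz0 (Ops.w0Dat hq hqM) A n → y ∈ Ki0 q M A n) :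
    ∀ y ∈ loc t₀, up q M n y ∈ Kz (Ops.wDat hq hqM) A n → y ∈ Ki0 q M A n :=
  gamma' hq hA hl hlN T₀ hT₀ hV₀ t₀ i₀ c hc hη (Ops.w0Dat hq hqM)
    (w0Dat_TW hq hqM hl hlN T₀ hT₀) hE0

end Conc

end Fermat.Agent.S43.Glue.Inst

end
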