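/-
Row 37 (S43), block GLUE, LAYER 3 (helper33; integrator helper136).  THE CONCRETE OBJECTS (definitions only).

Parameters: `q M` (`[NeZero q] [NeZero M]`), the residue characteristic `p`, an exponent `n`, the eigenvalues `a : ℕ → ℤ`.
* `V q M n  = W1 (F1Q q M) n`                          (level `±Γ₁(q) ∩ Γ₀(q M)`),
* `V0 q M n = W1 (modularFunctionFieldFull (q * M)) n` (level `Γ₀(q M)`; `= GAL.E.W (q * M) n` by `rfl`);
* `Good q M p`, `Idx q M p = Good q M p ⊕ (ZMod q)ˣ`   (index set of the localising families);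
* `T1 l`, `T0 l : HeckeOp1 _ l`, `TW1`, `TW0`; `t a n`, `t0 a n`  (`T_l - a_l` | `⟨d⟩ - 1` resp. `0`);
* `g d n = ⟨d⟩`, `dn n = π_*`, `up n = π^*`, `S σ n = ρ(σ)`, `S0 σ n`, `U n`, `U0 n`, `Ut D n = w⁻¹ U w`;
* `diaD : Triv.Dia`, `wtw hc e he : Triv.WTw` (the Galois twist of `w` is an argument);
* `K D A n = Triv.KD`, `K' D A n = Triv.K0D`, `Y0 A n = Triv.Kinf`;
* `red p k : HomA (V q M (p * k)) (V q M p)` (`Exp.dn`).
To instantiate `Glue.Raw p e (t q M p a n) (t0 q M p a n)` take `n = p ^ (e + 1)`; `RawRed` : `tb = t q M p a p`.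
-/
import Fermat.Agent.S43.Glue.Raw
import Fermat.Agent.S43.Ops.Pi.Inst
import Fermat.Agent.S43.Ops.T.DiaBridge
import Fermat.Agent.S43.Ops.U.Inst
import Fermat.Agent.S43.Ops.W.Zero
import Fermat.Agent.S43.Triv.K0
import Fermat.Agent.S43.Exp.Basic
import Fermat.Agent.GAL.E.Exists

set_option autoImplicit false

noncomputable section

namespace Fermat.Agent.S43.Glue.Inst

open ModularCurve AlgebraicCurve
open Fermat.Agent.S24 Fermat.Agent.S24.B Fermat.Agent.S48.BB Fermat.Agent.S48.BB.M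
  Fermat.Agent.S48.BB.E Fermat.Agent.S43.Ops
open Fermat.Agent.GAL.E (GQ)

variable (q M : ℕ) [NeZero q] [NeZero M]

/-- the Kummer module at the level `±Γ₁(q) ∩ Γ₀(q M)` -/
abbrev V (n : ℕ) : Type := W1 (F1Q q M) n

/-- the Kummer module at the level `Γ₀(q M)` -/
abbrev V0 (n : ℕ) : Type := W1 (modularFunctionFieldFull (q * M)) n

/-- additive endomorphisms, with the `AddZeroClass` structure deduced from `AddCommGroup` (as in `Glue.Raw`; the default
instance on `W1 F₀ n →+ W1 F₀ n` is `Additive.addZeroClass`, for which `Sub`, `SMul ℤ` are not found) -/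
abbrev EndA (X : Type) [AddCommGroup X] : Type := X →+ X

/-- additive maps, same remark -/
abbrev HomA (X Y : Type) [AddCommGroup X] [AddCommGroup Y] : Type := X →+ Y

/-- the identity -/
def idA (X : Type) [AddCommGroup X] : EndA X := AddMonoidHom.id X

theorem idA_apply {X : Type} [AddCommGroup X] (x : X) : idA X x = x := rfl

/-- the good primes: `l ∤ q M p` -/
def Good (q M p : ℕ) : Type := {l : ℕ // l.Prime ∧ ¬ l ∣ q * M * p}

/-- the index set of the localising families: good primes and diamonds -/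
abbrev Idx (q M p : ℕ) : Type := Good q M p ⊕ (ZMod q)ˣ

variable {q M} {p : ℕ}

theorem Good.prime (l : Good q M p) : l.1.Prime := l.2.1

theorem Good.not_dvd (l : Good q M p) : ¬ l.1 ∣ q * M := fun h => l.2.2 (h.mul_right p)

theorem Good.ne (l : Good q M p) : l.1 ≠ p := fun h => l.2.2 (by rw [h]; exact Dvd.intro_left _ rfl)

theorem Good.coprime_q (l : Good q M p) : Nat.Coprime l.1 q :=
  (Nat.Prime.coprime_iff_not_dvd l.prime).2 fun h => l.not_dvd (h.mul_right M)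

instance Good.neZero (l : Good q M p) : NeZero l.1 := ⟨l.prime.ne_zero⟩

/-- `T_l` with its diamond at the level `±Γ₁(q) ∩ Γ₀(q M)` -/
def T1 (l : Good q M p) : HeckeOp1 (F1Q q M) l.1 := heckeOpT q M l.prime l.not_dvd

/-- `T_l` (trivial diamond) at the level `Γ₀(q M)`; `T = GAL.E.heckeF (q * M) l` -/
def T0 (l : Good q M p) : HeckeOp1 (modularFunctionFieldFull (q * M)) l.1 where
  T := (Fermat.Agent.GAL.E.heckeOp (q * M) l.1 l.prime l.not_dvd).T
  D := 1
  qExpand_T := (Fermat.Agent.GAL.E.heckeOp (q * M) l.1 l.prime l.not_dvd).qExpand_T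
  galF_D := fun _ _ => rfl
  isKum := (Fermat.Agent.GAL.E.heckeOp (q * M) l.1 l.prime l.not_dvd).isKum

theorem T0_D (l : Good q M p) : (T0 l).D = 1 := rfl

theorem T1_D (l : Good q M p) : (T1 l).D = dia q M (unitL q M l.prime l.not_dvd) :=
  heckeOpT_D_eq_dia q M l.prime l.not_dvd

/-- `T_l` on `V` -/
def TW1 (n : ℕ) (l : Good q M p) : EndA (V q M n) := (T1 l).TW n

/-- `T_l` on `V0` -/
def TW0 (n : ℕ) (l : Good q M p) : EndA (V0 q M n) := (T0 l).TW n

variable (q M)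

/-- the diamond operator `⟨d⟩` on `V` -/
def g (d : (ZMod q)ˣ) (n : ℕ) : EndA (V q M n) := autW (dia q M d) n

variable (p)

/-- **the localising family at level `H`**: `T_l - a_l` and `⟨d⟩ - 1` -/
def t (a : ℕ → ℤ) (n : ℕ) : Idx q M p → EndA (V q M n)
  | Sum.inl l => TW1 n l - a l.1 • idA (V q M n)
  | Sum.inr d => g q M d n - idA (V q M n)

/-- **the localising family at level `Γ₀`**: `T_l - a_l` and `0` -/
def t0 (a : ℕ → ℤ) (n : ℕ) : Idx q M p → EndA (V0 q M n)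
  | Sum.inl l => TW0 n l - a l.1 • idA (V0 q M n)
  | Sum.inr _ => 0

variable {p}

theorem t_inl (a : ℕ → ℤ) (n : ℕ) (l : Good q M p) (x : V q M n) :
    t q M p a n (Sum.inl l) x = TW1 n l x - a l.1 • x := rfl

theorem t_inr (a : ℕ → ℤ) (n : ℕ) (d : (ZMod q)ˣ) (x : V q M n) :
    t q M p a n (Sum.inr d) x = g q M d n x - x := rfl

theorem t0_inl (a : ℕ → ℤ) (n : ℕ) (l : Good q M p) (y : V0 q M n) :
    t0 q M p a n (Sum.inl l) y = TW0 n l y - a l.1 • y := rfl

theorem t0_inr (a : ℕ → ℤ) (n : ℕ) (d : (ZMod q)ˣ) (y : V0 q M n) :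
    t0 q M p a n (Sum.inr d) y = 0 := rfl

/-- `π_*` -/
def dn (n : ℕ) : HomA (V q M n) (V0 q M n) := Pi.dn q M n

/-- `π^*` -/
def up (n : ℕ) : HomA (V0 q M n) (V q M n) := Pi.up q M n

/-- `ρ(σ)` on `V` -/
def S (σ : GQ) (n : ℕ) : EndA (V q M n) := rho (F1Q q M) n σ

/-- `ρ(σ)` on `V0` -/
def S0 (σ : GQ) (n : ℕ) : EndA (V0 q M n) := rho (modularFunctionFieldFull (q * M)) n σ

/-- `U_q` at level `H` -/
def UO1 : U.UOp (F1Q q M) q := U.uOp1 q M

/-- `U_q` at level `Γ₀` -/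
def UO0 : U.UOp (modularFunctionFieldFull (q * M)) q := U.uOp0 (q * M) q (Dvd.intro _ rfl)

/-- `U_q` on `V` -/
def U (n : ℕ) : EndA (V q M n) := (UO1 q M).UW n

/-- `U_q` on `V0` -/
def U0 (n : ℕ) : EndA (V0 q M n) := (UO0 q M).UW n

/-- the diamond operators as a `Triv.Dia` -/
def diaD : Triv.Dia (F1Q q M) (ZMod q)ˣ where
  dia := dia q M
  galF_dia := fun σ d u => galF_dia d σ u

variable {q M}

/-- the Atkin-Lehner datum at level `H`; the Galois twist `e`, `he` is an argument (block OPS-W) -/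
def wtw (hc : Nat.Coprime q M) (e : GQ → (ZMod q)ˣ)
    (he : ∀ (σ : GQ) (u : FB (F1Q q M)),
      galF (F1Q q M) σ (w hc u) = w hc (dia q M (e σ) (galF (F1Q q M) σ u))) :
    Triv.WTw (F1Q q M) (ZMod q)ˣ where
  toDia := diaD q M
  w := w hc
  e := e
  w_dia := fun d u => w_dia hc d u
  galF_w := he

/-- `U_q^t = w⁻¹ U_q w` on `V` -/
def Ut (D : Triv.WTw (F1Q q M) (ZMod q)ˣ) (n : ℕ) : EndA (V q M n) := D.UsW (UO1 q M) n

/-- `K_∞` at level `H` (all diamond conjugates) -/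
def K (D : Triv.WTw (F1Q q M) (ZMod q)ˣ) (A : ValuationSubring Kbar) (n : ℕ) :
    AddSubgroup (V q M n) := Triv.KD D.toDia A n

/-- `K_0 = w⁻¹ K_∞` at level `H` -/
def K' (D : Triv.WTw (F1Q q M) (ZMod q)ˣ) (A : ValuationSubring Kbar) (n : ℕ) :
    AddSubgroup (V q M n) := Triv.K0D D A n

variable (q M)

/-- `K_∞` at level `Γ₀` -/
def Y0 (A : ValuationSubring Kbar) (n : ℕ) : AddSubgroup (V0 q M n) :=
  Triv.Kinf (modularFunctionFieldFull (q * M)) A n

/-- reduction of the exponent `V (p * k) → V p` -/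
def red (p k : ℕ) : HomA (V q M (p * k)) (V q M p) := Exp.dn p k

end Fermat.Agent.S43.Glue.Inst

end
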