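/-
Row 37 (S43), block GLUE, layer 3, group E0 (helper271).  (B3): THE `m`-PART OF LEVEL `Γ₀(q M)` IN THE THREE LANGUAGES.

* `mem_WZ_iff_tN`  : `y ∈ Conc.WZ q M Wm p n ↔ y ∈ LocZ.loc (E0.Out.tN (q * M) Wm p n)`
                     (the `inr` indices are `0`; `Bridge.heckeOp1 H` induces the same `TW` as `H`);
* `mem_WZ_iff_VV`  : for `n = p ^ k`: `y ∈ Conc.WZ q M Wm p n ↔ picHom (q * M) n y ∈ VV (q * M) p good a(Wm)`
                     (= field `loc` of `Ctx.E0Bridge`), with (B2) of helper284.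
-/
import Fermat.Agent.S43.E0.Out.Loc

set_option autoImplicit false

noncomputable section

namespace Fermat.Agent.S43.Glue.Inst

open ModularCurve AlgebraicCurve Fermat.Agent.S24 Fermat.Agent.S48.BB Fermat.Agent.S48.BB.E
open Fermat.Agent.S43.Glue.Conc
open Fermat.Agent.S43.E0.Inst (picHom VV)
open Fermat.Agent.S43.LocZ (loc mem_loc)

/-- the bridge is the identity -/
theorem brW_eq_self (N n : ℕ) (x : GAL.E.W N n) : Dict.Bridge.brW N n x = x := by
  obtain ⟨u, rfl⟩ := GAL.E.cls_surjective x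
  rfl

variable (q M : ℕ) [NeZero q] [NeZero M] (Wm : WeierstrassCurve ℤ) (p n : ℕ)

theorem T0_eq_TN (i : Idx Wm (q * M * p)) (y : GAL.E.W (q * M) n) :
    T0 q M i.2.1 (i.not_dvd q M Wm p) n y = E0.Out.TN (q * M) Wm p n i y := by
  have h := @Dict.Bridge.brW_TW (q * M) i.1 ⟨i.2.1.ne_zero⟩
    (@GAL.E.heckeOp (q * M) i.1 _ ⟨i.2.1.ne_zero⟩ i.2.1 (i.not_dvd q M Wm p)) n y
  rw [brW_eq_self, brW_eq_self] at h
  exact h.symm

theorem t0_inl_eq_tN (i : Idx Wm (q * M * p)) (y : GAL.E.W (q * M) n) :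
    t0 q M Wm p n (Sum.inl i) y = E0.Out.tN (q * M) Wm p n i y := by
  have h1 : ∀ z : V0 q M n, t0 q M Wm p n (Sum.inl i) z =
      T0 q M i.2.1 (i.not_dvd q M Wm p) n z - (Wm.apOfModel i.1) • z := fun _ => rfl
  rw [h1, T0_eq_TN]
  rfl

theorem iterate_t0_inl_eq (i : Idx Wm (q * M * p)) (k : ℕ) (y : GAL.E.W (q * M) n) :
    ((t0 q M Wm p n (Sum.inl i))^[k]) y = ((E0.Out.tN (q * M) Wm p n i)^[k]) y := by
  induction k generalizing y with
  | zero => rfl
  | succ k ih =>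
    rw [Function.iterate_succ_apply, Function.iterate_succ_apply, t0_inl_eq_tN]
    exact ih _

/-- **(B3)** -/
theorem mem_WZ_iff_tN (y : GAL.E.W (q * M) n) :
    y ∈ WZ q M Wm p n ↔ y ∈ loc (E0.Out.tN (q * M) Wm p n) := by
  constructor
  · intro hy i
    obtain ⟨k, hk⟩ := hy (Sum.inl i)
    exact ⟨k, by rw [← iterate_t0_inl_eq]; exact hk⟩
  · intro hy i
    rcases i with i | d
    · obtain ⟨k, hk⟩ := hy i
      exact ⟨k, by rw [iterate_t0_inl_eq]; exact hk⟩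
    · exact ⟨1, rfl⟩

/-- **The dictionary for the `m`-part** (field `loc` of `Ctx.E0Bridge`). -/
theorem mem_WZ_iff_VV [NeZero n] {k : ℕ} (hn : n = p ^ k) (y : GAL.E.W (q * M) n) :
    y ∈ WZ q M Wm p n ↔
      picHom (q * M) n y ∈ VV (q * M) p Wm.IsGoodPrimeFor (fun l => Wm.apOfModel l) :=
  (mem_WZ_iff_tN q M Wm p n y).trans (E0.Out.mem_loc_tN_iff (q * M) Wm p n hn y)

end Fermat.Agent.S43.Glue.Inst

end
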