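/-
Row 37 (S43), GLUE layer 3 (integrator helper136), group EXP (helper126): the fields
`hV hV₀ Z1 Z2` of `Glue.Raw` and `hVb π_surj ker_π` of `Glue.RawRed` for the concrete objects of `Glue/Inst/Data.lean`:
`V = V q M (p * p ^ e)`, `V₀ = V0 q M (p * p ^ e)`, `Vb = V q M p`, `π = red q M p (p ^ e)` (`= Exp.dn p (p ^ e)`).
All from block EXP (helper200).  In the sub-namespace `ExpI`: the compatibility of `π` with `ρ`, `⟨d⟩`, `T_ℓ`, `U_q`, `U_q^t`, any `autW`
and with the localising family `t` (field `π_t`).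
-/
import Fermat.Agent.S43.Glue.Inst.Data
import Fermat.Agent.S43.Exp.Lvl
import Fermat.Agent.S48.BB.V.LvlFull
import Fermat.Agent.S48.BB.W.Lvl

set_option autoImplicit false
set_option linter.unusedSectionVars false

noncomputable section

namespace Fermat.Agent.S43.Glue.Inst

open ModularCurve AlgebraicCurve
open Fermat.Agent.S24 Fermat.Agent.S48.BB Fermat.Agent.S48.BB.E
open Fermat.Agent.GAL.E (GQ)

variable (q M : ℕ) [NeZero q] [NeZero M] (p e : ℕ)

theorem hV (x : V q M (p * p ^ e)) : p ^ (e + 1) • x = 0 := by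
  rw [pow_succ']
  exact Fermat.Agent.S48.BB.M.nsmul_W x

theorem hV₀ (y : V0 q M (p * p ^ e)) : p ^ (e + 1) • y = 0 := by
  rw [pow_succ']
  exact Fermat.Agent.S48.BB.M.nsmul_W y

theorem hVb (v : V q M p) : p • v = 0 := Fermat.Agent.S48.BB.M.nsmul_W v

namespace ExpI

/-- generic: `W(n k)[k] = n • W(n k)`. -/
theorem div' {F₀ : IntermediateField ℚ (LaurentSeries ℚ)}
    {H : Subgroup (Matrix.SpecialLinearGroup (Fin 2) ℤ)} {N : ℕ} [NeZero N] (hL : IsLvl F₀ H N)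
    {n k : ℕ} (hn : 0 < n) (hk : 0 < k) (y : W1 F₀ (n * k)) (hy : k • y = 0) :
    ∃ z : W1 F₀ (n * k), y = n • z := by
  obtain ⟨x, rfl⟩ := Exp.exists_up'_eq_of_nsmul_eq_zero hn hk y hy
  obtain ⟨z, rfl⟩ := Exp.dn'_surjective_FB hL hn hk x
  exact ⟨z, Exp.up'_dn' n k z⟩

/-- generic: `W(n k)[n] = k • W(n k)`. -/
theorem div {F₀ : IntermediateField ℚ (LaurentSeries ℚ)}
    {H : Subgroup (Matrix.SpecialLinearGroup (Fin 2) ℤ)} {N : ℕ} [NeZero N] (hL : IsLvl F₀ H N)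
    {n k : ℕ} (hn : 0 < n) (hk : 0 < k) (y : W1 F₀ (n * k)) (hy : n • y = 0) :
    ∃ z : W1 F₀ (n * k), y = k • z := by
  obtain ⟨x, rfl⟩ := Exp.exists_up_eq_of_nsmul_eq_zero hn hk y hy
  obtain ⟨z, rfl⟩ := Exp.dn_surjective_FB hL hn hk x
  exact ⟨z, Exp.up_dn n k z⟩

end ExpI

variable {p}

theorem Z1 (hp : 0 < p) (y : V0 q M (p * p ^ e)) (hy : p ^ e • y = 0) :
    ∃ z : V0 q M (p * p ^ e), y = p • z :=
  ExpI.div' (V.isLvl_full (q * M)) hp (pow_pos hp e) y hy

theorem Z2 (hp : 0 < p) (y : V0 q M (p * p ^ e)) (hy : p • y = 0) :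
    ∃ z : V0 q M (p * p ^ e), y = p ^ e • z :=
  ExpI.div (V.isLvl_full (q * M)) hp (pow_pos hp e) y hy

theorem π_surj (hp : 0 < p) : Function.Surjective (red q M p (p ^ e)) :=
  Exp.dn_surjective_FB (W.isLvl_F1Q q M) hp (pow_pos hp e)

theorem ker_π (hp : 0 < p) (x : V q M (p * p ^ e)) (hx : red q M p (p ^ e) x = 0) :
    ∃ y : V q M (p * p ^ e), x = p • y := by
  obtain ⟨x', rfl⟩ := Exp.exists_up'_eq_of_dn_eq_zero hp (p ^ e) x hx
  obtain ⟨z, rfl⟩ := Exp.dn'_surjective_FB (W.isLvl_F1Q q M) hp (pow_pos hp e) x'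
  exact ⟨z, Exp.up'_dn' p (p ^ e) z⟩

namespace ExpI

/-- the same as `Z1`, `Z2` at level `H` (not fields, but free) -/
theorem Z1H (hp : 0 < p) (y : V q M (p * p ^ e)) (hy : p ^ e • y = 0) :
    ∃ z : V q M (p * p ^ e), y = p • z :=
  div' (W.isLvl_F1Q q M) hp (pow_pos hp e) y hy

theorem Z2H (hp : 0 < p) (y : V q M (p * p ^ e)) (hy : p • y = 0) :
    ∃ z : V q M (p * p ^ e), y = p ^ e • z :=
  div (W.isLvl_F1Q q M) hp (pow_pos hp e) y hy

/-! ### compatibilities of `π = red q M p k` -/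

variable (p) (k : ℕ)

theorem red_S (σ : GQ) (x : V q M (p * k)) :
    red q M p k (S q M σ (p * k) x) = S q M σ p (red q M p k x) :=
  Exp.dn_rho p k σ x

theorem red_autW (D : FB (F1Q q M) ≃ₐ[Kbar] FB (F1Q q M)) (x : V q M (p * k)) :
    red q M p k (autW D (p * k) x) = autW D p (red q M p k x) :=
  Exp.dn_autW p k D x

theorem red_g (d : (ZMod q)ˣ) (x : V q M (p * k)) :
    red q M p k (g q M d (p * k) x) = g q M d p (red q M p k x) :=
  Exp.dn_autW p k _ x

theorem red_TW1 {p' : ℕ} (l : Good q M p') (x : V q M (p * k)) :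
    red q M p k (TW1 (p * k) l x) = TW1 p l (red q M p k x) :=
  Exp.dn_TW p k (T1 l) x

theorem red_U (x : V q M (p * k)) :
    red q M p k (U q M (p * k) x) = U q M p (red q M p k x) :=
  Exp.dn_UW p k (UO1 q M) x

theorem red_Ut (D : Triv.WTw (F1Q q M) (ZMod q)ˣ) (x : V q M (p * k)) :
    red q M p k (Ut D (p * k) x) = Ut D p (red q M p k x) := by
  show red q M p k (autW D.w⁻¹ (p * k) ((UO1 q M).UW (p * k) (autW D.w (p * k) x))) =
    autW D.w⁻¹ p ((UO1 q M).UW p (autW D.w p (red q M p k x)))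
  rw [red_autW]
  refine congrArg _ ?_
  refine (Exp.dn_UW p k (UO1 q M) _).trans ?_
  exact congrArg _ (red_autW q M p k D.w x)

/-- field `π_t` of `RawRed` -/
theorem red_t {p' : ℕ} (a : ℕ → ℤ) (i : Idx q M p') (x : V q M (p * k)) :
    red q M p k (t q M p' a (p * k) i x) = t q M p' a p i (red q M p k x) := by
  rcases i with l | d
  · rw [t_inl, t_inl]
    refine (map_sub (red q M p k) _ _).trans ?_
    rw [red_TW1]
    exact congrArg _ (map_zsmul (red q M p k) _ _)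
  · rw [t_inr, t_inr]
    refine (map_sub (red q M p k) _ _).trans ?_
    rw [red_g]

end ExpI

end Fermat.Agent.S43.Glue.Inst

end
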