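/-
Row 37 (S43), block GLUE, layer 3, group SIGMA (helper6).  **THE CHOICE OF `σ` AND `φ`.**

GENERIC FORM (`exists_sigma_phi`): `R₁ : FreeRaw p e t t₀` for ANY generator `d₁` of `(ℤ/q)ˣ` (only used for tameness),
`r : G_ℚ → End V`, `r₀ : G_ℚ → End V₀` commuting with the localising families and with `R₁.g`, compatible with `R₁.dn`,
`uni` = inertia at `A ∣ q` is unipotent of level 2 on the `m`-part of level `Γ₀` (L0 / S34).  Then there are `σ ∈ I_A`, a Frobenius `φ`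
at `A` and `c : (ℤ/q)ˣ` with
* `Ops.W.ActsBy φ 1`, `Ops.W.ActsBy σ c`, `c` a generator of `(ℤ/q)ˣ`                 (so `g := ⟨c⟩`, `e φ = 1`);
* every `τ ∈ I_A` acts on `loc t` and on `loc t₀` as a power of `σ`                     (for the E0 adapter);
* `tame : ∀ x ∈ loc t, r φ (r σ x) = (r σ)^[q] (r φ x)`                                 (field `tame` of `Glue.Raw`).
-/
import Fermat.Agent.S43.Glue.FreeZ
import Fermat.Agent.S43.Tame.Export
import Fermat.Agent.S43.Ops.W.GalSer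

set_option autoImplicit false

noncomputable section

namespace Fermat.Agent.S43.Glue.Inst

open Fermat.Agent.S43.LocZ Fermat.Agent.S24 Fermat.Agent.S24.B Fermat.Agent.S48.BB
open Fermat.Agent.GAL.E (GQ)

section Loc

variable {ι V : Type} [AddCommGroup V] {t : ι → V →+ V}

/-- the restriction of a representation to the `m`-part -/
def rLoc (r : GQ →* AddMonoid.End V) (r_t : ∀ σ i x, r σ (t i x) = t i (r σ x)) :
    GQ →* AddMonoid.End (loc t) where
  toFun σ := mapLoc (r σ) (r_t σ)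
  map_one' := by
    ext x
    show r 1 (x : V) = x
    rw [map_one]
    rfl
  map_mul' σ τ := by
    ext x
    show r (σ * τ) (x : V) = r σ (r τ (x : V))
    rw [map_mul]
    rfl

theorem coe_rLoc (r : GQ →* AddMonoid.End V) (r_t : ∀ σ i x, r σ (t i x) = t i (r σ x)) (σ : GQ)
    (x : loc t) : ((rLoc r r_t σ x : loc t) : V) = r σ (x : V) := rfl

theorem coe_rLoc_pow (r : GQ →* AddMonoid.End V) (r_t : ∀ σ i x, r σ (t i x) = t i (r σ x))
    (σ : GQ) (j : ℕ) (x : loc t) : (((rLoc r r_t σ ^ j) x : loc t) : V) = (r σ)^[j] (x : V) := by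
  induction j generalizing x with
  | zero => rfl
  | succ j ih =>
    rw [pow_succ, Function.iterate_succ_apply]
    show (((rLoc r r_t σ ^ j) (rLoc r r_t σ x) : loc t) : V) = _
    rw [ih]
    rfl

end Loc

/-- a power of `ζ_q` -/
theorem actsBy_of_pow {q : ℕ} [NeZero q] {σ : GQ} {a : ℕ} (ha : a.Coprime q)
    (h : σ ((zetaK q : Kbarˣ) : Kbar) = ((zetaK q : Kbarˣ) : Kbar) ^ a) :
    Ops.W.ActsBy σ (ZMod.unitOfCoprime a ha) := by
  rw [Ops.W.ActsBy, h, ZMod.coe_unitOfCoprime, Ops.W.GalSer.zeta_pow_eq, Ops.W.GalSer.zeta_pow_eq,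
    ZMod.natCast_zmod_val]

theorem actsBy_pow {q : ℕ} [NeZero q] {σ : GQ} {c : (ZMod q)ˣ} (h : Ops.W.ActsBy σ c) (j : ℕ) :
    Ops.W.ActsBy (σ ^ j) (c ^ j) := by
  induction j with
  | zero =>
    rw [pow_zero, pow_zero, Ops.W.ActsBy, Units.val_one]
    show ((zetaK q : Kbarˣ) : Kbar) = _
    rw [Ops.W.GalSer.zeta_pow_eq, ZMod.natCast_zmod_val, ← Nat.cast_one,
      ← Ops.W.GalSer.zeta_pow_eq, pow_one]
  | succ j ih => rw [pow_succ, pow_succ]; exact ih.mul h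

variable {p e q : ℕ} [Fact p.Prime] [NeZero q]

/-- **The choice of `σ` and `φ`.** -/
theorem exists_sigma_phi (hq : q.Prime) (hqp : q ≠ p)
    (A : ValuationSubring Kbar) (hA : A.LiesOverPrime q)
    {ι V V₀ : Type} [AddCommGroup V] [AddCommGroup V₀] [Finite V] [Finite V₀]
    {t : ι → V →+ V} {t₀ : ι → V₀ →+ V₀} (R₁ : FreeRaw p e t t₀)
    (r : GQ →* AddMonoid.End V) (r₀ : GQ →* AddMonoid.End V₀)
    (hfin : ∃ L : IntermediateField ℚ Kbar, FiniteDimensional ℚ L ∧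
      ∀ σ : GQ, (∀ x ∈ L, σ x = x) → r σ = 1)
    (r_t : ∀ σ i x, r σ (t i x) = t i (r σ x))
    (r_g : ∀ σ x, r σ (R₁.g x) = R₁.g (r σ x))
    (dn_r : ∀ σ x, R₁.dn (r σ x) = r₀ σ (R₁.dn x))
    (uni : ∀ τ ∈ A.inertiaSubgroupIn ℚ, ∀ y ∈ loc t₀, r₀ τ (r₀ τ y - y) = r₀ τ y - y) :
    ∃ σ ∈ A.inertiaSubgroupIn ℚ, ∃ φ : GQ, A.IsFrobeniusAt φ q ∧ Ops.W.ActsBy φ (1 : (ZMod q)ˣ) ∧
      (∃ c : (ZMod q)ˣ, Ops.W.ActsBy σ c ∧ ∀ d : (ZMod q)ˣ, ∃ j : ℕ, d = c ^ j) ∧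
      (∀ τ ∈ A.inertiaSubgroupIn ℚ, ∃ j : ℕ, (∀ x ∈ loc t, r τ x = (r σ)^[j] x) ∧
        ∀ y ∈ loc t₀, r₀ τ y = (r₀ σ)^[j] y) ∧
      ∀ x ∈ loc t, r φ (r σ x) = (r σ)^[q] (r φ x) := by
  have hζ : IsPrimitiveRoot ((zetaK q : Kbarˣ) : Kbar) q :=
    IsPrimitiveRoot.coe_units_iff.2 (isPrimitiveRoot_zetaK q)
  have : Finite (AddMonoid.End V) :=
    Finite.of_injective (fun f : AddMonoid.End V => (f : V → V)) DFunLike.coe_injective
  obtain ⟨L, hL, hL'⟩ := hfin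
  obtain ⟨σ, hσ, φ, hφ, hφζ, hgen, hcyc, htame⟩ :=
    Tame.tame_monoid hq A hA hζ (rLoc r r_t)
      ⟨L, hL, fun σ hσ => by
        ext x
        show r σ (x : V) = x
        rw [hL' σ hσ]
        rfl⟩
      (fun τ hτ => by
        have hord : ∃ m : ℕ, 0 < m ∧ ∀ x, ((r τ : V →+ V)^[m]) x = x := by
          have h1 : IsOfFinOrder (r.toHomUnits τ) := isOfFinOrder_of_finite _
          refine ⟨orderOf (r.toHomUnits τ), orderOf_pos_iff.2 h1, fun x => ?_⟩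
          have h2 := congrArg Units.val (pow_orderOf_eq_one (r.toHomUnits τ))
          rw [Units.val_pow_eq_pow_val, MonoidHom.coe_toHomUnits, Units.val_one] at h2
          have h3 := congrArg (fun f : AddMonoid.End V => f x) h2
          rw [AddMonoid.End.coe_pow] at h3
          exact h3
        obtain ⟨m, hm, hm'⟩ := R₁.exists_iterate_eq (r τ) (r₀ τ) (r_t τ) (r_g τ) (dn_r τ)
          (uni τ hτ) hord hq hqp
        refine ⟨m, hm, ?_⟩
        ext x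
        rw [coe_rLoc_pow]
        exact hm' x x.2)
  obtain ⟨c, hc⟩ := Ops.W.exists_actsBy (q := q) σ
  refine ⟨σ, hσ, φ, hφ, ?_, ⟨c, hc, fun d => ?_⟩, fun τ hτ => ?_, fun x hx => ?_⟩
  · rw [Ops.W.ActsBy, hφζ, Units.val_one, Ops.W.GalSer.zeta_pow_eq, ZMod.natCast_zmod_val,
      ← Nat.cast_one, ← Ops.W.GalSer.zeta_pow_eq, pow_one]
  · have hd : ¬ q ∣ (d : ZMod q).val := by
      intro h
      have h1 : ((d : ZMod q).val : ZMod q) = 0 := (ZMod.natCast_eq_zero_iff _ _).2 h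
      rw [ZMod.natCast_zmod_val] at h1
      have : Fact q.Prime := ⟨hq⟩
      exact d.ne_zero h1
    obtain ⟨j, hj⟩ := hcyc _ hd
    exact ⟨j, Ops.W.ActsBy.unique (σ := σ ^ j) hj (actsBy_pow hc j)⟩
  · obtain ⟨j, hj, -⟩ := hgen τ hτ
    have h1 : ∀ x ∈ loc t, r τ x = (r σ)^[j] x := by
      intro x hx
      have := congrArg (fun f : AddMonoid.End (loc t) => ((f ⟨x, hx⟩ : loc t) : V)) hj
      rw [coe_rLoc_pow] at this
      exact this
    refine ⟨j, h1, fun y hy => ?_⟩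
    obtain ⟨x, hx⟩ := R₁.pr_surj ⟨y, hy⟩
    have h2 : y = R₁.hinv • R₁.dn (x : V) := (congrArg Subtype.val hx).symm
    have h3 : ∀ (k : ℕ) (z : V), (r₀ σ)^[k] (R₁.dn z) = R₁.dn ((r σ)^[k] z) := by
      intro k
      induction k with
      | zero => intro z; rfl
      | succ k ih => intro z; rw [Function.iterate_succ_apply, Function.iterate_succ_apply, ← dn_r, ih]
    rw [h2, map_nsmul, ← dn_r, h1 x x.2, iterate_map_nsmul, h3]
  · have := congrArg (fun f : AddMonoid.End (loc t) => ((f ⟨x, hx⟩ : loc t) : V)) htame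
    have e1 : (((rLoc r r_t σ ^ q * rLoc r r_t φ) ⟨x, hx⟩ : loc t) : V) =
        (r σ)^[q] (r φ x) := coe_rLoc_pow r r_t σ q (rLoc r r_t φ ⟨x, hx⟩)
    exact this.trans e1

end Fermat.Agent.S43.Glue.Inst

end
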